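/-
MAZUR (Track M), package (R5), pull-back half (helper1), part 1: **the degeneracy map
`β̄ : F̄_N → F̄_{N q}`, `f(T) ↦ f(T ^ q)`, in any characteristic prime to `N q`**.

`k` algebraically closed, `q` prime, `q ∤ N`, `(N q : k) ≠ 0`.  Through the Fricke involution of
`F̄_q = k(j̄, j̄_q) ⊆ F̄_{N q}` (helper6, `Red/Fricke.lean`, `Red/BarP.lean`) the function `j̄_q = β̄ j̄`
is a separating generator of `F̄_{N q}` of degree `ψ(N q)`; hence

* `mzr5p_finrankAlong_beta`  : `[F̄_{N q} : β̄ F̄_N] = q + 1`;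
* `mzr5p_separable_beta`     : `F̄_{N q} / β̄ F̄_N` is separable;
* `mzr5p_integral_beta`, `mzr5p_fundamental_beta` : `β̄` is integral and satisfies the fundamental
  identity `∑ e = q + 1`.
-/
import Fermat.Agent.Lib.Mazur.Red.BarP
import Fermat.Agent.Lib.Mazur.Red.FundId
import Fermat.Agent.Lib.Delta.Hecke.Bar

set_option autoImplicit false
set_option linter.style.haveILetI false
set_option linter.unusedSectionVars false
set_option linter.unusedVariables false

open HahnSeries ModularCurve IntermediateField AlgebraicCurve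
open Fermat.Agent.Igusa Fermat.Agent.Eis Fermat.Agent.Curve Fermat.Agent.T1 Fermat.Agent.Delta
  Fermat.Agent.T3

noncomputable section

namespace Fermat.Agent.Mazur

section Fricke

variable (k : Type*) [Field k] [IsAlgClosed k] (q : ℕ) [NeZero q] (hq : q.Prime)
  (hqk : ((q : ℕ) : k) ≠ 0)

/-- the Fricke involution of `F̄_q = k(j̄, j̄_q)` on the `q`-expansion side -/
def mzr5pFricke : TaBar k q ≃ₐ[k] TaBar k q :=
  ((mzrbEquiv k q hq).symm.trans (mzrFricke k q hq (mzrb_hdeg k q hq hqk))).trans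
    (mzrbEquiv k q hq)

theorem mzr5pFricke_J : mzr5pFricke k q hq hqk (taBarJ k q) = mzrbJp k q := by
  show mzrbEquiv k q hq (mzrFricke k q hq _ ((mzrbEquiv k q hq).symm (taBarJ k q))) = _
  rw [mzrbEquiv_symm_taBarJ, mzrFricke_ehX, mzrbEquiv_ehY]

include hq hqk in
/-- `[F̄_q : k(j̄_q)] = q + 1` -/
theorem mzr5p_finrank_Jq :
    Module.finrank ↥(k⟮mzrbJp k q⟯) (TaBar k q) = q + 1 := by
  have h1 := mzrb_finrank_transport (mzr5pFricke k q hq hqk) (taBarJ k q)
  rw [mzr5pFricke_J, ta_bar_finrank k q hqk, eo_dedekindPsi_prime hq] at h1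
  exact h1.symm

include hq hqk in
/-- `j̄_q` is a separating element of `F̄_q` -/
theorem mzr5p_isSeparable_Jq : Algebra.IsSeparable ↥(k⟮mzrbJp k q⟯) (TaBar k q) := by
  have h1 := mzrb_isSeparable_transport (mzr5pFricke k q hq hqk) (taBarJ k q)
    (ta_bar_isSeparable k q hqk)
  rwa [mzr5pFricke_J] at h1

end Fricke

section Beta

variable (k : Type*) [Field k] [IsAlgClosed k] (N q : ℕ) [NeZero N] [NeZero q]

/-- the inclusion `F̄_q ⊆ F̄_{N q}` -/
def mzr5pIota : TaBar k q →ₐ[k] TaBar k (N * q) :=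
  IntermediateField.inclusion (full_degeneracyC_le k (dvd_mul_left q N))

theorem coe_mzr5pIota (x : TaBar k q) :
    ((mzr5pIota k N q x : TaBar k (N * q)) : LaurentSeries k) = (x : LaurentSeries k) :=
  IntermediateField.coe_inclusion _ x

theorem mzr5pIota_J : mzr5pIota k N q (taBarJ k q) = taBarJ k (N * q) :=
  Subtype.ext (coe_mzr5pIota k N q _)

theorem mzr5pIota_Jq : mzr5pIota k N q (mzrbJp k q) = dlhBetaC k N q (taBarJ k N) :=
  Subtype.ext (coe_mzr5pIota k N q _)

variable (hq : q.Prime) (hqN : ¬ q ∣ N) (hNk : ((N * q : ℕ) : k) ≠ 0)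

include hNk in
theorem mzr5p_q_ne : ((q : ℕ) : k) ≠ 0 := by
  intro h
  apply hNk
  rw [Nat.cast_mul, h, mul_zero]

include hNk in
theorem mzr5p_N_ne : ((N : ℕ) : k) ≠ 0 := by
  intro h
  apply hNk
  rw [Nat.cast_mul, h, zero_mul]

include hq hqN hNk in
/-- `[F̄_{N q} : F̄_q] = ψ(N)` -/
theorem mzr5p_finrankAlong_iota : finrankAlong k (mzr5pIota k N q) = dedekindPsi N := by
  have h1 := mzr_finrank_tower_along (mzr5pIota k N q) (taBarJ k q)
  rw [mzr5pIota_J, ta_bar_finrank k q (mzr5p_q_ne k N q hNk), ta_bar_finrank k (N * q) hNk,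
    eo_dedekindPsi_prime hq, igPsi_mul_prime_of_not_dvd hq hqN, mul_comm] at h1
  exact Nat.eq_of_mul_eq_mul_right (Nat.succ_pos q) h1

include hq hqN hNk in
/-- `[F̄_{N q} : k(j̄_q)] = ψ(N q)` -/
theorem mzr5p_finrank_betaJ :
    Module.finrank ↥(k⟮dlhBetaC k N q (taBarJ k N)⟯) (TaBar k (N * q)) = dedekindPsi (N * q) := by
  have h1 := mzr_finrank_tower_along (mzr5pIota k N q) (mzrbJp k q)
  rw [mzr5pIota_Jq, mzr5p_finrank_Jq k q hq (mzr5p_q_ne k N q hNk),
    mzr5p_finrankAlong_iota k N q hq hqN hNk] at h1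
  rw [← h1, igPsi_mul_prime_of_not_dvd hq hqN, mul_comm]

include hq hNk in
/-- `j̄_q` is a separating element of `F̄_{N q}` -/
theorem mzr5p_isSeparable_betaJ :
    Algebra.IsSeparable ↥(k⟮dlhBetaC k N q (taBarJ k N)⟯) (TaBar k (N * q)) := by
  letI := algebraAlong (mzr5pIota k N q)
  haveI := isScalarTower_along (mzr5pIota k N q)
  haveI h0 : Algebra.IsSeparable ↥(k⟮algebraMap (TaBar k q) (TaBar k (N * q)) (taBarJ k q)⟯)
      (TaBar k (N * q)) := by
    show Algebra.IsSeparable ↥(k⟮mzr5pIota k N q (taBarJ k q)⟯) (TaBar k (N * q))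
    rw [mzr5pIota_J]
    exact ta_bar_isSeparable k (N * q) hNk
  haveI : Algebra.IsSeparable (TaBar k q) (TaBar k (N * q)) :=
    mzr_isSeparable_of_adjoin_map (k := k) (taBarJ k q)
  haveI := mzr5p_isSeparable_Jq k q hq (mzr5p_q_ne k N q hNk)
  have h2 := mzr_isSeparable_adjoin_map (k := k) (F' := TaBar k (N * q)) (mzrbJp k q)
  have h3 : algebraMap (TaBar k q) (TaBar k (N * q)) (mzrbJp k q) =
      dlhBetaC k N q (taBarJ k N) := mzr5pIota_Jq k N q
  rwa [h3] at h2

include hq hqN hNk in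
/-- **`[F̄_{N q} : β̄ F̄_N] = q + 1`** -/
theorem mzr5p_finrankAlong_beta : finrankAlong k (dlhBetaC k N q) = q + 1 := by
  have h1 := mzr_finrank_tower_along (dlhBetaC k N q) (taBarJ k N)
  rw [mzr5p_finrank_betaJ k N q hq hqN hNk, ta_bar_finrank k N (mzr5p_N_ne k N q hNk),
    igPsi_mul_prime_of_not_dvd hq hqN] at h1
  have hpos : 0 < dedekindPsi N := by
    rw [← ta_bar_finrank k N (mzr5p_N_ne k N q hNk)]
    haveI := (ta_bar_isFunctionFieldGen k N).finite
    exact Module.finrank_pos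
  exact Nat.eq_of_mul_eq_mul_left hpos h1

include hq hNk in
/-- **`F̄_{N q} / β̄ F̄_N` is separable** -/
theorem mzr5p_separable_beta :
    letI := algebraAlong (dlhBetaC k N q); Algebra.IsSeparable (TaBar k N) (TaBar k (N * q)) := by
  haveI := mzr5p_isSeparable_betaJ k N q hq hNk
  exact mzr_isSeparable_along (dlhBetaC k N q) (taBarJ k N)

/-- `β̄` is integral -/
theorem mzr5p_integral_beta : (dlhBetaC k N q).toRingHom.IsIntegral :=
  t3h_isIntegralAlong (ta_bar_isFunctionFieldGen k N) (ta_bar_isFunctionFieldGen k (N * q)) _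

include hNk in
theorem mzr5p_hasPrincipalDivisors : HasPrincipalDivisors k (TaBar k (N * q)) := by
  haveI := ta_bar_isSeparable k (N * q) hNk
  exact Fermat.Agent.CurveP.hasPrincipalDivisors (ta_bar_isFunctionFieldGen k (N * q))

include hq hNk in
/-- **the fundamental identity `∑ e = q + 1` along `β̄`** -/
theorem mzr5p_fundamental_beta [HasPrincipalDivisors k (TaBar k (N * q))] :
    FundamentalIdentityAlong k (dlhBetaC k N q) (mzr5p_integral_beta k N q) := by
  haveI := ta_bar_isSeparable k N (mzr5p_N_ne k N q hNk)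
  exact mzr_fundamentalIdentityAlong (ta_bar_isFunctionFieldGen k N)
    (ta_bar_isFunctionFieldGen k (N * q)) (dlhBetaC k N q) (mzr5p_integral_beta k N q)
    (mzr5p_separable_beta k N q hq hNk)

end Beta

end Fermat.Agent.Mazur
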