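/-
MAZUR (Track M), package (R5) (helper1), part 3: **the degeneracy maps are compatible with the
reduction data** (`Mzr5Compat`), and the numerical inputs of the pull-back along `β`.

`M` a level prime to `ℓ = 𝔓.p`, `r` a prime with `ℓ ∤ M r`; `α = heckeAlphaBar Qb M r` (`f ↦ f`),
`β = heckeBetaBar Qb M r` (`f(T) ↦ f(T^r)`), `ᾱ = dlhAlphaC κ M r`, `β̄ = dlhBetaC κ M r`.

* `mzr5_compat_alpha`, `mzr5_compat_beta` : `Mzr5Compat (t3aBase 𝔓 M _) (t3aBase 𝔓 (M r) _) α ᾱ`, same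
  for `(β, β̄)`;
* `mzr5_beta_hdeg`  : `[F_{M r} : β F_M] = [F̄_{M r} : β̄ F̄_M]` (both are `r + 1`);
* `mzr5_beta_hFIb`  : the fundamental identity along `β̄`.
-/
import Fermat.Agent.Lib.Mazur.Red.R5.Restrict
import Fermat.Agent.Lib.Mazur.Red.R5P.BetaBar
import Fermat.Agent.Lib.Delta.Hecke.Gauss
import Fermat.Agent.Lib.T3.Hecke.Emb

set_option autoImplicit false
set_option linter.style.haveILetI false
set_option linter.unusedSectionVars false
set_option linter.unusedVariables false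
set_option synthInstance.maxHeartbeats 400000

namespace Fermat.Agent.Mazur

open AlgebraicCurve IntermediateField Fermat.Agent.Curve Fermat.Agent.T1 Fermat.Agent.T3
  ModularCurve Fermat.Agent.TW Fermat.Agent.S05Lib HahnSeries Fermat.Agent.Delta

local notation "Qb" => AlgebraicClosure ℚ

variable (𝔓 : FFPlace) (M r : ℕ) [NeZero M] [NeZero r] (hM : ¬ 𝔓.p ∣ M) (hMr : ¬ 𝔓.p ∣ M * r)

/-- `α` is compatible with the reduction data -/
theorem mzr5_compat_alpha :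
    Mzr5Compat (t3aBase 𝔓 M hM) (t3aBase 𝔓 (M * r) hMr) (heckeAlphaBar Qb M r)
      (dlhAlphaC (IsLocalRing.ResidueField ↥𝔓.P) M r) := by
  have hmem : ∀ f : ↥(modularFunctionFieldBar M), f ∈ tbOvQ 𝔓 M →
      heckeAlphaBar Qb M r f ∈ tbOvQ 𝔓 (M * r) := by
    intro f hf
    rw [mem_tbOvQ, coe_heckeAlphaBar]
    exact hf
  refine ⟨rfl, fun _ _ _ => rfl, hmem, fun f hf => ?_⟩
  apply Subtype.ext
  show ((tbResQ (t3aOK 𝔓 (M * r) hMr) ⟨heckeAlphaBar Qb M r f, hmem f hf⟩ :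
    ↥(tbBarF 𝔓 (M * r))) : LaurentSeries (IsLocalRing.ResidueField ↥𝔓.P)) =
    ((dlhAlphaC (IsLocalRing.ResidueField ↥𝔓.P) M r (tbResQ (t3aOK 𝔓 M hM) ⟨f, hf⟩) :
      ↥(tbBarF 𝔓 (M * r))) : LaurentSeries (IsLocalRing.ResidueField ↥𝔓.P))
  rw [coe_tbResQ, coe_dlhAlphaC, coe_tbResQ, coe_heckeAlphaBar]

/-- `β` is compatible with the reduction data -/
theorem mzr5_compat_beta :
    Mzr5Compat (t3aBase 𝔓 M hM) (t3aBase 𝔓 (M * r) hMr) (heckeBetaBar Qb M r)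
      (dlhBetaC (IsLocalRing.ResidueField ↥𝔓.P) M r) := by
  refine ⟨rfl, fun _ _ _ => rfl, fun f hf => dlh_beta_mem 𝔓 M r ⟨f, hf⟩, fun f hf => ?_⟩
  exact dlh_res_beta 𝔓 M hM r hMr ⟨f, hf⟩

section Numerics

variable (hr : r.Prime) (hrM : ¬ r ∣ M)

include hMr in
theorem mzr5_cast_ne : ((M * r : ℕ) : IsLocalRing.ResidueField ↥𝔓.P) ≠ 0 := by
  haveI : CharP (IsLocalRing.ResidueField ↥𝔓.P) 𝔓.p := tkr_charP_residue 𝔓.hp 𝔓.hP
  rw [ne_eq, CharP.cast_eq_zero_iff (IsLocalRing.ResidueField ↥𝔓.P) 𝔓.p]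
  exact hMr

include hr hrM hMr in
/-- the degrees of `β` and `β̄` agree -/
theorem mzr5_beta_hdeg :
    finrankAlong Qb (heckeBetaBar Qb M r) =
      finrankAlong (IsLocalRing.ResidueField ↥𝔓.P)
        (dlhBetaC (IsLocalRing.ResidueField ↥𝔓.P) M r) := by
  haveI : Fact r.Prime := ⟨hr⟩
  rw [t3k_finrank_beta M r hrM, mzr5p_finrankAlong_beta _ M r hr hrM (mzr5_cast_ne 𝔓 M r hMr)]

include hr hMr in
/-- the fundamental identity along `β̄` -/
theorem mzr5_beta_hFIb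
    [HasPrincipalDivisors (IsLocalRing.ResidueField ↥𝔓.P) ↥(tbBarF 𝔓 (M * r))] :
    FundamentalIdentityAlong (IsLocalRing.ResidueField ↥𝔓.P)
      (dlhBetaC (IsLocalRing.ResidueField ↥𝔓.P) M r)
      (mzr5p_integral_beta (IsLocalRing.ResidueField ↥𝔓.P) M r) :=
  mzr5p_fundamental_beta _ M r hr (mzr5_cast_ne 𝔓 M r hMr)

end Numerics

end Fermat.Agent.Mazur
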